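import Mathlib

set_option autoImplicit false

namespace Fermat.Agent.S49

/-- Formal Hecke relations at all primes (written in the `coeffHecke` shape
`b (n * ℓ) + [ℓ ∣ n] e ℓ * b (n / ℓ) = b ℓ * b n`) force multiplicativity on coprime
arguments. -/
theorem mul_of_coprime_of_rel {R : Type*} [CommRing R] (e b : ℕ → R) (h1 : b 1 = 1)
    (hrel : ∀ ℓ : ℕ, ℓ.Prime → ∀ n : ℕ,
      b (n * ℓ) + (if ℓ ∣ n then e ℓ * b (n / ℓ) else 0) = b ℓ * b n) :
    ∀ m n : ℕ, m.Coprime n → b (m * n) = b m * b n := by
  intro m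
  induction m using Nat.strong_induction_on with
  | _ m ih =>
    intro n hmn
    rcases Nat.lt_or_ge m 2 with hm | hm
    · interval_cases m
      · have hn : n = 1 := by simpa using hmn
        subst hn
        rw [h1, mul_one, mul_one]
      · rw [h1, one_mul, one_mul]
    · obtain ⟨ℓ, hℓ, hℓm⟩ := Nat.exists_prime_and_dvd (by omega : m ≠ 1)
      obtain ⟨m', rfl⟩ := hℓm
      have hm'pos : 0 < m' := by
        rcases Nat.eq_zero_or_pos m' with h | h
        · subst h; omega
        · exact h
      have hm'lt : m' < ℓ * m' := by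
        have := hℓ.two_le
        nlinarith
      have hcop' : m'.Coprime n := Nat.Coprime.coprime_dvd_left (Dvd.intro_left ℓ rfl) hmn
      have hℓn : ¬ ℓ ∣ n := by
        intro hdvd
        have : ℓ ∣ Nat.gcd (ℓ * m') n := Nat.dvd_gcd (Dvd.intro m' rfl) hdvd
        rw [hmn] at this
        exact hℓ.one_lt.ne' (Nat.dvd_one.1 this)
      have e1 : ℓ * m' * n = (m' * n) * ℓ := by ring
      have e2 : ℓ * m' = m' * ℓ := by ring
      by_cases hℓm' : ℓ ∣ m'
      · obtain ⟨m'', rfl⟩ := hℓm'
        have hm''lt : m'' < ℓ * (ℓ * m'') := by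
          have := hℓ.two_le
          have h3 : 0 < m'' := by
            rcases Nat.eq_zero_or_pos m'' with h | h
            · subst h; omega
            · exact h
          nlinarith
        have hcop'' : m''.Coprime n :=
          Nat.Coprime.coprime_dvd_left (Dvd.intro_left ℓ rfl) hcop'
        have r1 := hrel ℓ hℓ (ℓ * m'' * n)
        have hd1 : ℓ ∣ ℓ * m'' * n := ⟨m'' * n, by ring⟩
        have hq1 : ℓ * m'' * n / ℓ = m'' * n := by
          rw [mul_assoc]; exact Nat.mul_div_cancel_left _ hℓ.pos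
        rw [if_pos hd1, hq1] at r1
        have r2 := hrel ℓ hℓ (ℓ * m'')
        have hd2 : ℓ ∣ ℓ * m'' := ⟨m'', rfl⟩
        have hq2 : ℓ * m'' / ℓ = m'' := Nat.mul_div_cancel_left _ hℓ.pos
        rw [if_pos hd2, hq2] at r2
        have i1 := ih (ℓ * m'') hm'lt n hcop'
        have i2 := ih m'' hm''lt n hcop''
        rw [e1, e2]
        rw [i1, i2] at r1
        linear_combination r1 - b n * r2
      · have hℓm'n : ¬ ℓ ∣ m' * n := fun hdvd =>
          (hℓ.dvd_mul.1 hdvd).elim hℓm' hℓn
        have r1 := hrel ℓ hℓ (m' * n)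
        rw [if_neg hℓm'n, add_zero] at r1
        have r2 := hrel ℓ hℓ m'
        rw [if_neg hℓm', add_zero] at r2
        have i1 := ih m' hm'lt n hcop'
        rw [e1, e2, r1, r2, i1]
        ring

theorem prime_pow_of_rel {R : Type*} [CommRing R] (e b : ℕ → R)
    (hrel : ∀ ℓ : ℕ, ℓ.Prime → ∀ n : ℕ,
      b (n * ℓ) + (if ℓ ∣ n then e ℓ * b (n / ℓ) else 0) = b ℓ * b n)
    (p r : ℕ) (hp : p.Prime) :
    b (p ^ (r + 2)) = b p * b (p ^ (r + 1)) - e p * b (p ^ r) := by
  have r1 := hrel p hp (p ^ (r + 1))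
  have hd : p ∣ p ^ (r + 1) := ⟨p ^ r, by ring⟩
  have hq : p ^ (r + 1) / p = p ^ r := by
    rw [pow_succ]; exact Nat.mul_div_cancel _ hp.pos
  rw [if_pos hd, hq] at r1
  have e1 : p ^ (r + 2) = p ^ (r + 1) * p := by ring
  rw [e1]
  linear_combination r1

/-- If the first coefficient vanishes, the relations force all positive-index coefficients to
vanish. -/
theorem eq_zero_of_rel_of_one_eq_zero {R : Type*} [CommRing R] (e b c : ℕ → R) (h1 : b 1 = 0)
    (hrel : ∀ ℓ : ℕ, ℓ.Prime → ∀ n : ℕ,
      b (n * ℓ) + (if ℓ ∣ n then e ℓ * b (n / ℓ) else 0) = c ℓ * b n) :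
    ∀ n : ℕ, 0 < n → b n = 0 := by
  intro n
  induction n using Nat.strong_induction_on with
  | _ n ih =>
    intro hn
    rcases Nat.lt_or_ge n 2 with hlt | hge
    · have : n = 1 := by omega
      subst this
      exact h1
    · obtain ⟨ℓ, hℓ, hℓn⟩ := Nat.exists_prime_and_dvd (by omega : n ≠ 1)
      obtain ⟨m, rfl⟩ := hℓn
      have hmpos : 0 < m := by
        rcases Nat.eq_zero_or_pos m with h | h
        · subst h; omega
        · exact h
      have hmlt : m < ℓ * m := by
        have := hℓ.two_le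
        nlinarith
      have r1 := hrel ℓ hℓ m
      have hm0 := ih m hmlt hmpos
      have e2 : ℓ * m = m * ℓ := by ring
      rw [e2]
      by_cases hd : ℓ ∣ m
      · obtain ⟨m', rfl⟩ := hd
        have hm'pos : 0 < m' := by
          rcases Nat.eq_zero_or_pos m' with h | h
          · subst h; omega
          · exact h
        have hm'lt : m' < ℓ * (ℓ * m') := by
          have := hℓ.two_le
          nlinarith
        have hq : ℓ * m' / ℓ = m' := Nat.mul_div_cancel_left _ hℓ.pos
        rw [if_pos ⟨m', rfl⟩, hq, ih m' hm'lt hm'pos, hm0] at r1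
        simpa using r1
      · rw [if_neg hd, hm0] at r1
        simpa using r1

end Fermat.Agent.S49
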