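import Mathlib

set_option autoImplicit false

namespace Fermat.Agent.S49

open Module

/-- A family of pairwise commuting endomorphisms of a finite-dimensional vector space over an
algebraically closed field has a common eigenvector inside every nonzero stable subspace. -/
theorem exists_common_eigenvector_aux {K V : Type*} [Field K] [IsAlgClosed K]
    [AddCommGroup V] [Module K V] [FiniteDimensional K V]
    (𝒮 : Set (Module.End K V)) (hcomm : ∀ T ∈ 𝒮, ∀ T' ∈ 𝒮, Commute T T') :
    ∀ (n : ℕ) (W : Submodule K V), Module.finrank K W = n → W ≠ ⊥ →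
      (∀ T ∈ 𝒮, ∀ v ∈ W, T v ∈ W) →
      ∃ v ∈ W, v ≠ 0 ∧ ∀ T ∈ 𝒮, ∃ c : K, T v = c • v := by
  intro n
  induction n using Nat.strong_induction_on with
  | _ n ih =>
    intro W hn hW hstab
    by_cases hscal : ∀ T ∈ 𝒮, ∃ c : K, ∀ v ∈ W, T v = c • v
    · obtain ⟨v, hvW, hv0⟩ := (Submodule.ne_bot_iff W).1 hW
      refine ⟨v, hvW, hv0, fun T hT => ?_⟩
      obtain ⟨c, hc⟩ := hscal T hT
      exact ⟨c, hc v hvW⟩
    · simp only [not_forall, not_exists] at hscal
      obtain ⟨T₀, hT₀, hns⟩ := hscal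
      have hnt : Nontrivial W := Submodule.nontrivial_iff_ne_bot.2 hW
      obtain ⟨μ, hμ⟩ := Module.End.exists_eigenvalue (T₀.restrict (hstab T₀ hT₀))
      obtain ⟨w, hw⟩ := hμ.exists_hasEigenvector
      let W' : Submodule K V := W ⊓ LinearMap.ker (T₀ - μ • (1 : Module.End K V))
      have hmem : ∀ v : V, v ∈ W' ↔ v ∈ W ∧ T₀ v = μ • v := by
        intro v
        simp only [W', Submodule.mem_inf, LinearMap.mem_ker, LinearMap.sub_apply,
          LinearMap.smul_apply, Module.End.one_apply, sub_eq_zero]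
      have hw1 : (T₀.restrict (hstab T₀ hT₀)) w = μ • w := hw.apply_eq_smul
      have hw2 : T₀ (w : V) = μ • (w : V) := by
        have := congrArg Subtype.val hw1
        simpa using this
      have hwW' : (w : V) ∈ W' := (hmem _).2 ⟨w.2, hw2⟩
      have hw0 : (w : V) ≠ 0 := fun h => hw.2 (Subtype.ext h)
      have hW'ne : W' ≠ ⊥ := fun h => hw0 (by
        have : (w : V) ∈ (⊥ : Submodule K V) := h ▸ hwW'
        simpa using this)
      have hW'le : W' ≤ W := inf_le_left
      have hW'lt : W' < W := by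
        refine lt_of_le_of_ne hW'le fun h => ?_
        obtain ⟨v, hvW, hv⟩ := hns μ
        have : v ∈ W' := h ▸ hvW
        exact hv ((hmem v).1 this).2
      have hfr : Module.finrank K W' < n := hn ▸ Submodule.finrank_lt_finrank_of_lt hW'lt
      have hstab' : ∀ T ∈ 𝒮, ∀ v ∈ W', T v ∈ W' := by
        intro T hT v hv
        rw [hmem] at hv ⊢
        refine ⟨hstab T hT v hv.1, ?_⟩
        have hc : T₀ (T v) = T (T₀ v) := by
          have := hcomm T₀ hT₀ T hT
          exact congrArg (fun f : Module.End K V => f v) this.eq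
        rw [hc, hv.2, map_smul]
      obtain ⟨v, hvW', hv0, hv⟩ := ih _ hfr W' rfl hW'ne hstab'
      exact ⟨v, hW'le hvW', hv0, hv⟩

theorem exists_common_eigenvector {K V : Type*} [Field K] [IsAlgClosed K]
    [AddCommGroup V] [Module K V] [FiniteDimensional K V]
    (𝒮 : Set (Module.End K V)) (hcomm : ∀ T ∈ 𝒮, ∀ T' ∈ 𝒮, Commute T T')
    (W : Submodule K V) (hW : W ≠ ⊥) (hstab : ∀ T ∈ 𝒮, ∀ v ∈ W, T v ∈ W) :
    ∃ v ∈ W, v ≠ 0 ∧ ∀ T ∈ 𝒮, ∃ c : K, T v = c • v :=
  exists_common_eigenvector_aux 𝒮 hcomm _ W rfl hW hstab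

end Fermat.Agent.S49
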