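import Mathlib
import Fermat.Agent.S49.CommonEigen

set_option autoImplicit false

namespace Fermat.Agent.S49

open Module

/-- Deligne–Serre style lifting: a commutative ring `A`, finite over `ℤ`, acting faithfully on a
finite-dimensional complex vector space, has for every prime ideal `I` a common eigenvector whose
eigencharacter has kernel contained in `I`. -/
theorem exists_eigen_character {A V : Type*} [CommRing A] [Module.Finite ℤ A]
    [AddCommGroup V] [Module ℂ V] [FiniteDimensional ℂ V]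
    (ρ : A →+* Module.End ℂ V) (hρ : Function.Injective ρ)
    (I : Ideal A) [hI : I.IsPrime] :
    ∃ (θ : A →+* ℂ) (w : V), w ≠ 0 ∧ (∀ T : A, ρ T w = θ T • w) ∧ RingHom.ker θ ≤ I := by
  classical
  have hnoeth : IsNoetherianRing A := IsNoetherianRing.of_finite ℤ A
  obtain ⟨𝔭, h𝔭min, h𝔭le⟩ := Ideal.exists_minimalPrimes_le (bot_le : (⊥ : Ideal A) ≤ I)
  have hann : Module.annihilator A A = ⊥ := Module.annihilator_eq_bot.2 inferInstance
  have hass : 𝔭 ∈ associatedPrimes A A := by
    apply Module.associatedPrimes.minimalPrimes_annihilator_subset_associatedPrimes A A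
    rw [hann]
    exact h𝔭min
  obtain ⟨h𝔭prime, t, ht⟩ := (isAssociatedPrime_iff).1 hass
  have hmem𝔭 : ∀ x : A, x ∈ 𝔭 ↔ x * t = 0 := by
    intro x
    rw [ht, Submodule.mem_colon_singleton]
    simp
  have ht0 : t ≠ 0 := by
    intro h
    apply h𝔭prime.ne_top
    rw [Ideal.eq_top_iff_one, hmem𝔭, h, mul_zero]
  have hρt : ρ t ≠ 0 := fun h => ht0 (hρ (by rw [h, map_zero]))
  obtain ⟨g, hg⟩ : ∃ g : V, ρ t g ≠ 0 := by
    by_contra hcon
    simp only [not_exists, not_not] at hcon
    exact hρt (LinearMap.ext hcon)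
  let W : Submodule ℂ V :=
    { carrier := {s | ∀ x ∈ 𝔭, ρ x s = 0}
      add_mem' := fun {a b} ha hb x hx => by rw [map_add, ha x hx, hb x hx, add_zero]
      zero_mem' := fun x _ => map_zero _
      smul_mem' := fun c s hs x hx => by rw [map_smul, hs x hx, smul_zero] }
  have hWmem : ∀ s : V, s ∈ W ↔ ∀ x ∈ 𝔭, ρ x s = 0 := fun s => Iff.rfl
  have hgW : ρ t g ∈ W := by
    intro x hx
    have : ρ x (ρ t g) = ρ (x * t) g := by rw [map_mul]; rfl
    rw [this, (hmem𝔭 x).1 hx, map_zero]
    rfl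
  have hWne : W ≠ ⊥ := fun h => hg (by
    have : ρ t g ∈ (⊥ : Submodule ℂ V) := h ▸ hgW
    simpa using this)
  have hcomm : ∀ T ∈ Set.range ρ, ∀ T' ∈ Set.range ρ, Commute T T' := by
    rintro _ ⟨a, rfl⟩ _ ⟨b, rfl⟩
    exact (Commute.all a b).map ρ
  have hstab : ∀ T ∈ Set.range ρ, ∀ v ∈ W, T v ∈ W := by
    rintro _ ⟨a, rfl⟩ v hv x hx
    have : ρ x (ρ a v) = ρ a (ρ x v) := by
      have h1 : ρ x * ρ a = ρ a * ρ x := by rw [← map_mul, ← map_mul, mul_comm]
      exact congrArg (fun f : Module.End ℂ V => f v) h1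
    rw [this, hv x hx, map_zero]
  obtain ⟨w, hwW, hw0, hw⟩ := exists_common_eigenvector (Set.range ρ) hcomm W hWne hstab
  have hex : ∀ T : A, ∃ c : ℂ, ρ T w = c • w := fun T => hw (ρ T) ⟨T, rfl⟩
  choose θ hθ using hex
  have hinj : ∀ c c' : ℂ, c • w = c' • w → c = c' := fun c c' h =>
    smul_left_injective ℂ hw0 h
  let θr : A →+* ℂ :=
    { toFun := θ
      map_one' := by
        apply hinj
        rw [← hθ, map_one, one_smul]
        rfl
      map_mul' := fun a b => by
        apply hinj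
        rw [← hθ, map_mul, Module.End.mul_apply, hθ b, map_smul, hθ a, smul_smul, mul_comm]
      map_zero' := by
        apply hinj
        rw [← hθ, map_zero, zero_smul]
        rfl
      map_add' := fun a b => by
        apply hinj
        rw [← hθ, map_add, LinearMap.add_apply, hθ a, hθ b, add_smul] }
  have hθr : ∀ T : A, θr T = θ T := fun T => rfl
  have h𝔭ker : 𝔭 ≤ RingHom.ker θr := by
    intro x hx
    rw [RingHom.mem_ker, hθr]
    apply hinj
    rw [← hθ, zero_smul]
    exact hwW x hx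
  refine ⟨θr, w, hw0, fun T => by rw [hθr]; exact hθ T, ?_⟩
  intro x hx
  by_contra hxI
  have hx𝔭 : x ∉ 𝔭 := fun h => hxI (h𝔭le h)
  have hint : IsIntegral ℤ x := Algebra.IsIntegral.isIntegral x
  have hlt := Ideal.comap_lt_comap_of_integral_mem_sdiff (R := ℤ) h𝔭ker ⟨hx, hx𝔭⟩ hint
  have hbot : Ideal.comap (algebraMap ℤ A) (RingHom.ker θr) = ⊥ := by
    rw [eq_bot_iff]
    intro n hn
    rw [Ideal.mem_comap, RingHom.mem_ker] at hn
    have : ((n : ℤ) : ℂ) = 0 := by simpa using hn
    simpa using this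
  rw [hbot] at hlt
  exact not_lt_bot hlt

end Fermat.Agent.S49

namespace Fermat.Agent.S49

/-- Lying over: for a ring `A` finite over `ℤ`, a character `θ : A → ℂ` whose kernel lies in a
maximal ideal `I` takes values in the algebraic integers, and there is a maximal ideal of the
algebraic integers whose preimage contains `I`. -/
theorem exists_maximal_over {A : Type*} [CommRing A] [Module.Finite ℤ A]
    (θ : A →+* ℂ) (I : Ideal A) [hI : I.IsMaximal] (hker : RingHom.ker θ ≤ I) :
    ∃ (𝔪 : Ideal (integralClosure ℤ ℂ)), 𝔪.IsMaximal ∧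
      ∀ T : A, ∃ c : integralClosure ℤ ℂ, (c : ℂ) = θ T ∧ (T ∈ I → c ∈ 𝔪) := by
  classical
  have hint : ∀ T : A, θ T ∈ integralClosure ℤ ℂ := fun T =>
    (Algebra.IsIntegral.isIntegral (R := ℤ) T).map (θ.toIntAlgHom)
  let θ' : A →+* integralClosure ℤ ℂ :=
    θ.codRestrict (integralClosure ℤ ℂ).toSubring hint
  have hθ' : ∀ T : A, ((θ' T : integralClosure ℤ ℂ) : ℂ) = θ T := fun T => rfl
  letI : Algebra A (integralClosure ℤ ℂ) := θ'.toAlgebra
  haveI : Algebra.IsIntegral A (integralClosure ℤ ℂ) := by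
    refine ⟨fun c => ?_⟩
    have hc : IsIntegral ℤ c := integralClosure.isIntegral c
    exact hc.tower_top
  haveI : I.IsPrime := hI.isPrime
  have hle : Ideal.comap (algebraMap A (integralClosure ℤ ℂ)) ⊥ ≤ I := by
    intro x hx
    apply hker
    rw [RingHom.mem_ker]
    rw [Ideal.mem_comap, Ideal.mem_bot] at hx
    have : ((algebraMap A (integralClosure ℤ ℂ) x : integralClosure ℤ ℂ) : ℂ) = 0 := by
      rw [hx]; rfl
    exact this
  obtain ⟨Q, -, hQp, hQ⟩ := Ideal.exists_ideal_over_prime_of_isIntegral I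
    (⊥ : Ideal (integralClosure ℤ ℂ)) hle
  have hQmax : Q.IsMaximal := by
    haveI := hQp
    apply Ideal.isMaximal_of_isIntegral_of_isMaximal_comap (R := A) Q
    rw [hQ]
    exact hI
  refine ⟨Q, hQmax, fun T => ⟨θ' T, hθ' T, fun hT => ?_⟩⟩
  have : T ∈ Ideal.comap (algebraMap A (integralClosure ℤ ℂ)) Q := hQ ▸ hT
  exact this

end Fermat.Agent.S49
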