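import Mathlib
import Fermat.Prelude.Def_CuspForm_IntegralLattice
import Fermat.Prelude.Def_FLTPrelim_Modularity
import Fermat.Prelude.Def_CuspForm_HeckeAlgebra
import Fermat.Prelude.Def_CuspForm_IntegralStructure
import Fermat.Prelude.Thm_CuspForm_intLattice_fg
import Fermat.Prelude.Thm_CuspForm_mem_intLattice_of_mem_heckeAlgebra
import Fermat.Prelude.Thm_ModularFormClass_qCoeff_heckeT
import Fermat.Prelude.Thm_ModularFormClass_qCoeff_heckeU
import Fermat.Prelude.Thm_CongruenceSubgroup_one_mem_strictPeriods_Gamma0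

set_option autoImplicit false

namespace Fermat.Agent.S49

open CuspForm ModularFormClass CongruenceSubgroup UpperHalfPlane

variable {N : ℕ} {k : ℤ}

theorem one_mem_strictPeriods (N : ℕ) :
    (1 : ℝ) ∈ (Subgroup.map (Matrix.SpecialLinearGroup.mapGL ℝ) (Gamma0 N)).strictPeriods :=
  CongruenceSubgroup.one_mem_strictPeriods_Gamma0 N

theorem qCoeff_add (f g : CuspForm (Gamma0 N) k) (n : ℕ) :
    qCoeff ⇑(f + g) n = qCoeff ⇑f n + qCoeff ⇑g n := by
  simp only [qCoeff, FunLike.coe_add]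
  rw [ModularForm.qExpansion_add one_pos (one_mem_strictPeriods N) f g, map_add]

theorem qCoeff_zero (n : ℕ) : qCoeff ⇑(0 : CuspForm (Gamma0 N) k) n = 0 := by
  simp only [qCoeff, FunLike.coe_zero]
  rw [UpperHalfPlane.qExpansion_zero, map_zero]

theorem qCoeff_smul (c : ℂ) (f : CuspForm (Gamma0 N) k) (n : ℕ) :
    qCoeff ⇑(c • f) n = c * qCoeff ⇑f n := by
  have h1 : ⇑(c • f) = c • ⇑f := by
    ext z
    simp
  simp only [qCoeff, h1]
  rw [ModularForm.qExpansion_smul one_pos (one_mem_strictPeriods N) c f]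
  simp

theorem qCoeff_neg (f : CuspForm (Gamma0 N) k) (n : ℕ) :
    qCoeff ⇑(-f) n = - qCoeff ⇑f n := by
  have : -f = (-1 : ℂ) • f := by simp
  rw [this, qCoeff_smul]
  ring

theorem qCoeff_sub (f g : CuspForm (Gamma0 N) k) (n : ℕ) :
    qCoeff ⇑(f - g) n = qCoeff ⇑f n - qCoeff ⇑g n := by
  rw [sub_eq_add_neg, qCoeff_add, qCoeff_neg, sub_eq_add_neg]

theorem qCoeff_cusp_zero (f : CuspForm (Gamma0 N) k) : qCoeff ⇑f 0 = 0 := by
  simp only [qCoeff]
  exact CuspFormClass.qExpansion_coeff_zero f one_pos (one_mem_strictPeriods N)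

theorem eq_zero_of_qCoeff_eq_zero (f : CuspForm (Gamma0 N) k) (h : ∀ n, qCoeff ⇑f n = 0) :
    f = 0 := by
  have hq : qExpansion 1 ⇑f = 0 := by
    ext n
    simpa [qCoeff] using h n
  have hper := SlashInvariantFormClass.periodic_comp_ofComplex f (one_mem_strictPeriods N)
  have hf0 : (⇑f : ℍ → ℂ) = 0 := by
    have hcusp : Fact (IsCusp OnePoint.infty
        (Subgroup.map (Matrix.SpecialLinearGroup.mapGL ℝ) (Gamma0 N))) :=
      ⟨Subgroup.isCusp_of_mem_strictPeriods one_pos (one_mem_strictPeriods N)⟩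
    exact (UpperHalfPlane.qExpansion_eq_zero_iff one_pos hper (ModularFormClass.holo f)
      (ModularFormClass.bdd_at_infty f)).1 hq
  exact DFunLike.coe_injective (hf0.trans FunLike.coe_zero.symm)

theorem qCoeff_heckeTLin {p : ℕ} (hp : p.Prime) (hpN : ¬ p ∣ N) (f : CuspForm (Gamma0 N) 2)
    (n : ℕ) :
    qCoeff ⇑(CuspForm.heckeTLin 2 hp hpN f) n =
      qCoeff ⇑f (n * p) + if p ∣ n then (p : ℂ) * qCoeff ⇑f (n / p) else 0 := by
  rw [CuspForm.coe_heckeTLin_apply,
    ModularFormClass.qCoeff_heckeT f (one_mem_strictPeriods N) hp.ne_zero n,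
    ModularForm.coeffHeckeT_apply]
  norm_num

theorem qCoeff_heckeULin [NeZero N] {p : ℕ} (hp : p.Prime) (hpN : p ∣ N)
    (f : CuspForm (Gamma0 N) 2) (n : ℕ) :
    qCoeff ⇑(CuspForm.heckeULin 2 hpN f) n = qCoeff ⇑f (n * p) := by
  rw [CuspForm.coe_heckeULin_apply,
    ModularFormClass.qCoeff_heckeU f (one_mem_strictPeriods N) hp.ne_zero n,
    ModularForm.coeffHeckeU_apply]

end Fermat.Agent.S49
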