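import Mathlib
import Fermat.Agent.S49.QCoeff
import Fermat.Agent.S49.Lifting
import Fermat.Agent.S49.Formal

set_option autoImplicit false

namespace Fermat.Agent.S49

open CuspForm ModularFormClass CongruenceSubgroup UpperHalfPlane

variable {N : ℕ}

theorem mem_intLattice_iff (f : CuspForm (Gamma0 N) 2) :
    f ∈ CuspForm.intLattice N 2 ↔ ∀ n : ℕ, ∃ m : ℤ, qCoeff ⇑f n = (m : ℂ) :=
  P2MW.S_CuspForm_intLattice_fg.W3WsD.mem_intLattice_iff f

theorem qIntegralSet_subset_intLattice :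
    CuspForm.qIntegralSet N ⊆ (CuspForm.intLattice N 2 : Set (CuspForm (Gamma0 N) 2)) := by
  intro f hf
  rw [SetLike.mem_coe, mem_intLattice_iff]
  intro n
  obtain ⟨m, hm⟩ := Subring.mem_bot.1 (hf n)
  exact ⟨m, hm.symm⟩

theorem exists_finset_span_top [NeZero N] (h : CuspForm.HasIntegralBasis N) :
    ∃ G : Finset (CuspForm (Gamma0 N) 2),
      (∀ g ∈ G, g ∈ CuspForm.intLattice N 2) ∧
      Submodule.span ℂ (G : Set (CuspForm (Gamma0 N) 2)) = ⊤ := by
  obtain ⟨G, hG⟩ := CuspForm.intLattice_fg N 2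
  refine ⟨G, fun g hg => hG ▸ Submodule.subset_span hg, ?_⟩
  rw [eq_top_iff, ← h]
  apply Submodule.span_le.2
  intro f hf
  have h1 : f ∈ CuspForm.intLattice N 2 := qIntegralSet_subset_intLattice hf
  rw [← hG] at h1
  exact Submodule.span_subset_span ℤ ℂ _ h1

theorem finiteDimensional_of_hasIntegralBasis [NeZero N] (h : CuspForm.HasIntegralBasis N) :
    FiniteDimensional ℂ (CuspForm (Gamma0 N) 2) := by
  obtain ⟨G, -, hG⟩ := exists_finset_span_top h
  exact ⟨⟨G, hG⟩⟩

theorem heckeAlgebra_finite [NeZero N] (h : CuspForm.HasIntegralBasis N) :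
    Module.Finite ℤ (CuspForm.heckeAlgebra N 2 ∅) := by
  classical
  obtain ⟨G, hGL, hG⟩ := exists_finset_span_top h
  have hL : IsNoetherian ℤ (CuspForm.intLattice N 2) :=
    isNoetherian_of_fg_of_noetherian _ (CuspForm.intLattice_fg N 2)
  let φ : CuspForm.heckeAlgebra N 2 ∅ →ₗ[ℤ] (G → CuspForm.intLattice N 2) :=
    { toFun := fun T g => ⟨T.1 g.1,
        CuspForm.mem_intLattice_of_mem_heckeAlgebra (by norm_num) T.2 (hGL g.1 g.2)⟩
      map_add' := fun T T' => by
        funext g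
        apply Subtype.ext
        simp
      map_smul' := fun c T => by
        funext g
        apply Subtype.ext
        simp }
  have hinj : Function.Injective φ := by
    intro T T' hTT'
    apply Subtype.ext
    apply LinearMap.ext_on hG
    intro g hg
    have := congrArg (fun F => ((F ⟨g, hg⟩ : CuspForm.intLattice N 2) :
      CuspForm (Gamma0 N) 2)) hTT'
    exact this
  exact Module.Finite.of_injective φ hinj

end Fermat.Agent.S49

namespace Fermat.Agent.S49

open CuspForm ModularFormClass CongruenceSubgroup UpperHalfPlane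

variable {N : ℕ}

/-- Cusp forms all of whose `q`-coefficients are integers divisible by `3`. -/
def threeLattice (N : ℕ) : AddSubgroup (CuspForm (Gamma0 N) 2) where
  carrier := {g | ∀ n : ℕ, ∃ m : ℤ, qCoeff ⇑g n = 3 * (m : ℂ)}
  add_mem' := fun {f g} hf hg n => by
    obtain ⟨a, ha⟩ := hf n
    obtain ⟨b, hb⟩ := hg n
    exact ⟨a + b, by rw [qCoeff_add, ha, hb]; push_cast; ring⟩
  zero_mem' := fun n => ⟨0, by rw [qCoeff_zero]; simp⟩
  neg_mem' := fun {f} hf n => by
    obtain ⟨a, ha⟩ := hf n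
    exact ⟨-a, by rw [qCoeff_neg, ha]; push_cast; ring⟩

theorem mem_threeLattice_iff (g : CuspForm (Gamma0 N) 2) :
    g ∈ threeLattice N ↔ ∀ n : ℕ, ∃ m : ℤ, qCoeff ⇑g n = 3 * (m : ℂ) := Iff.rfl

theorem hecke_mem_threeLattice [NeZero N] {T : Module.End ℂ (CuspForm (Gamma0 N) 2)}
    (hT : T ∈ CuspForm.heckeAlgebra N 2 ∅) {g : CuspForm (Gamma0 N) 2}
    (hg : g ∈ threeLattice N) : T g ∈ threeLattice N := by
  have hg' : ((3 : ℂ)⁻¹ • g) ∈ CuspForm.intLattice N 2 := by
    rw [mem_intLattice_iff]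
    intro n
    obtain ⟨m, hm⟩ := hg n
    exact ⟨m, by rw [qCoeff_smul, hm]; field_simp⟩
  have hTg' := CuspForm.mem_intLattice_of_mem_heckeAlgebra (by norm_num) hT hg'
  rw [mem_intLattice_iff] at hTg'
  intro n
  obtain ⟨m, hm⟩ := hTg' n
  refine ⟨m, ?_⟩
  have : T g = (3 : ℂ) • T ((3 : ℂ)⁻¹ • g) := by
    rw [map_smul, smul_smul]
    norm_num
  rw [this, qCoeff_smul, hm]

/-- The ideal of Hecke operators sending `f₀` into `3 L`. -/
def congIdeal [NeZero N] (f₀ : CuspForm (Gamma0 N) 2) : Ideal (CuspForm.heckeAlgebra N 2 ∅) where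
  carrier := {T | (T : Module.End ℂ (CuspForm (Gamma0 N) 2)) f₀ ∈ threeLattice N}
  add_mem' := fun {T T'} hT hT' => by
    show ((T + T' : CuspForm.heckeAlgebra N 2 ∅) : Module.End ℂ (CuspForm (Gamma0 N) 2)) f₀
      ∈ threeLattice N
    rw [Subalgebra.coe_add, LinearMap.add_apply]
    exact (threeLattice N).add_mem hT hT'
  zero_mem' := by
    show ((0 : CuspForm.heckeAlgebra N 2 ∅) : Module.End ℂ (CuspForm (Gamma0 N) 2)) f₀
      ∈ threeLattice N
    rw [Subalgebra.coe_zero, LinearMap.zero_apply]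
    exact (threeLattice N).zero_mem
  smul_mem' := fun c T hT => by
    show ((c * T : CuspForm.heckeAlgebra N 2 ∅) : Module.End ℂ (CuspForm (Gamma0 N) 2)) f₀
      ∈ threeLattice N
    rw [Subalgebra.coe_mul, Module.End.mul_apply]
    exact hecke_mem_threeLattice c.2 hT

theorem mem_congIdeal_iff [NeZero N] (f₀ : CuspForm (Gamma0 N) 2)
    (T : CuspForm.heckeAlgebra N 2 ∅) :
    T ∈ congIdeal f₀ ↔ (T : Module.End ℂ (CuspForm (Gamma0 N) 2)) f₀ ∈ threeLattice N :=
  Iff.rfl

end Fermat.Agent.S49
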