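import Mathlib
import Fermat.Prelude.Def_FormalHecke_Eigensystem
import Fermat.Prelude.Def_ModularForm_EisensteinChiNegThree
import Fermat.Agent.S49.Hecke

set_option autoImplicit false

namespace Fermat.Agent.S49

open CuspForm ModularFormClass CongruenceSubgroup UpperHalfPlane EisensteinWeightOne

variable {N : ℕ}

/-- Criterion for maximality: residue ring is a quotient of `ℤ / p`. -/
theorem isMaximal_of_forall_exists_int {A : Type*} [CommRing A] (I : Ideal A) (p : ℕ)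
    (hp : p.Prime) (hpI : (p : A) ∈ I) (h1 : (1 : A) ∉ I)
    (hex : ∀ T : A, ∃ m : ℤ, T - (m : A) ∈ I) : I.IsMaximal := by
  rw [Ideal.isMaximal_iff]
  refine ⟨h1, fun J x hIJ hxI hxJ => ?_⟩
  obtain ⟨m, hm⟩ := hex x
  have hpm : ¬ (p : ℤ) ∣ m := by
    rintro ⟨k, rfl⟩
    apply hxI
    have h2 : (((p : ℤ) * k : ℤ) : A) ∈ I := by
      push_cast
      exact I.mul_mem_right _ hpI
    have := I.add_mem hm h2
    simpa using this
  have hcop : IsCoprime (p : ℤ) m :=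
    (Nat.prime_iff_prime_int.1 hp).coprime_iff_not_dvd.2 hpm
  obtain ⟨u, v, huv⟩ := hcop
  have h3 : (1 : A) = (u : A) * (p : A) + (v : A) * x - (v : A) * (x - (m : A)) := by
    have := congrArg (fun z : ℤ => (z : A)) huv
    simp only [Int.cast_add, Int.cast_mul, Int.cast_natCast, Int.cast_one] at this
    rw [← this]
    ring
  rw [h3]
  exact J.sub_mem (J.add_mem (J.mul_mem_left _ (hIJ hpI)) (J.mul_mem_left _ hxJ))
    (J.mul_mem_left _ (hIJ hm))

theorem chiNegThree_cast_zmod (ℓ : ℕ) : ((chiNegThree ℓ : ℤ) : ZMod 3) = (ℓ : ZMod 3) := by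
  have h3 : (ℓ : ZMod 3) = ((ℓ % 3 : ℕ) : ZMod 3) := (ZMod.natCast_mod ℓ 3).symm
  rw [h3]
  unfold chiNegThree
  have hlt : ℓ % 3 < 3 := Nat.mod_lt _ (by norm_num)
  interval_cases (ℓ % 3) <;> simp
  decide

/-- The integer "level-`N` weight-two character" `ℓ ↦ ℓ` away from `N`, `0` at `N`. -/
def eN (N ℓ : ℕ) : ℤ := if ℓ ∣ N then 0 else (ℓ : ℤ)

theorem rel_mod_three (a : ℕ → ℤ)
    (heig : FormalHecke.IsEigensystem
      (fun ℓ => if ℓ ∣ N then 0 else ((chiNegThree ℓ : ℤ) : ℤ)) a)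
    (ℓ : ℕ) (hℓ : ℓ.Prime) (n : ℕ) :
    (3 : ℤ) ∣ a (n * ℓ) + (if ℓ ∣ n then eN N ℓ * a (n / ℓ) else 0) - a ℓ * a n := by
  have h := heig.2 ℓ hℓ n
  have key : (((a (n * ℓ) + (if ℓ ∣ n then eN N ℓ * a (n / ℓ) else 0) - a ℓ * a n : ℤ)) :
      ZMod 3) = 0 := by
    have h' := congrArg (fun z : ℤ => (z : ZMod 3)) h
    simp only [Int.cast_add, Int.cast_mul] at h'
    rw [mul_comm n ℓ]
    push_cast
    rw [← h']
    unfold eN
    by_cases hn : ℓ ∣ n <;> by_cases hN : ℓ ∣ N <;>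
      simp [hn, hN, chiNegThree_cast_zmod]
  exact_mod_cast (ZMod.intCast_zmod_eq_zero_iff_dvd _ 3).1 key

end Fermat.Agent.S49
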