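import Mathlib
import Fermat.Prelude.Def_CuspForm_IntegralLattice
import Fermat.Agent.S49.Cong

set_option autoImplicit false

namespace Fermat.Agent.S49

open CuspForm ModularFormClass CongruenceSubgroup UpperHalfPlane EisensteinWeightOne

variable {N : ℕ} [NeZero N]

/-- The Hecke operator at the prime `ℓ`: `T_ℓ` if `ℓ ∤ N`, `U_ℓ` if `ℓ ∣ N`. -/
noncomputable def heckeOp (N : ℕ) [NeZero N] (ℓ : ℕ) (hℓ : ℓ.Prime) :
    CuspForm.heckeAlgebra N 2 ∅ :=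
  if h : ℓ ∣ N then CuspForm.heckeAlgebra.U hℓ h (Set.notMem_empty ℓ)
  else CuspForm.heckeAlgebra.T hℓ h (Set.notMem_empty ℓ)

theorem qCoeff_heckeOp (ℓ : ℕ) (hℓ : ℓ.Prime) (f : CuspForm (Gamma0 N) 2) (n : ℕ) :
    qCoeff ⇑((heckeOp N ℓ hℓ : Module.End ℂ (CuspForm (Gamma0 N) 2)) f) n =
      qCoeff ⇑f (n * ℓ) + if ℓ ∣ n then ((eN N ℓ : ℤ) : ℂ) * qCoeff ⇑f (n / ℓ) else 0 := by
  unfold heckeOp eN
  by_cases h : ℓ ∣ N
  · simp only [h, dite_true, if_true, CuspForm.heckeAlgebra.coe_U, Int.cast_zero, zero_mul,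
      ite_self, add_zero]
    exact qCoeff_heckeULin hℓ h f n
  · simp only [h, dite_false, if_false, CuspForm.heckeAlgebra.coe_T, Int.cast_natCast]
    exact qCoeff_heckeTLin hℓ h f n

theorem intCast_apply (m : ℤ) (f : CuspForm (Gamma0 N) 2) :
    (((m : CuspForm.heckeAlgebra N 2 ∅) : Module.End ℂ (CuspForm (Gamma0 N) 2)) f) =
      (m : ℂ) • f := by
  have h1 : ((m : CuspForm.heckeAlgebra N 2 ∅) : Module.End ℂ (CuspForm (Gamma0 N) 2)) =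
      (m : Module.End ℂ (CuspForm (Gamma0 N) 2)) := by
    have := map_intCast (CuspForm.heckeAlgebra N 2 ∅).val m
    exact this
  rw [h1, Module.End.intCast_apply, Int.cast_smul_eq_zsmul]

theorem bridge_coeff_cast (a : ℕ → ℤ) (n : ℕ) :
    (((bridgeProduct a).coeff n : ℤ) : ZMod 3) = (a n : ZMod 3) := by
  have h1 : PowerSeries.map (Int.castRingHom (ZMod 3)) (e1Chi3In ℤ) = 1 := by
    ext j
    simp only [e1Chi3In, e1Chi3, PowerSeries.coeff_map, PowerSeries.coeff_mk,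
      PowerSeries.coeff_one]
    by_cases hj : j = 0
    · simp [hj]
    · simp only [hj, if_false, eq_intCast, Int.cast_id, Int.cast_mul, Int.cast_ofNat]
      have : (6 : ZMod 3) = 0 := by decide
      rw [this, zero_mul]
  have h2 : PowerSeries.map (Int.castRingHom (ZMod 3)) (bridgeProduct a) =
      PowerSeries.mk (fun n => (a n : ZMod 3)) := by
    unfold bridgeProduct
    rw [map_mul, h1, mul_one]
    ext j
    simp
  have h3 := congrArg (PowerSeries.coeff n) h2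
  simpa using h3

end Fermat.Agent.S49

namespace Fermat.Agent.S49

open CuspForm ModularFormClass CongruenceSubgroup UpperHalfPlane EisensteinWeightOne

variable {N : ℕ} [NeZero N]

theorem heckeOp_sub_mem (f₀ : CuspForm (Gamma0 N) 2) (af a : ℕ → ℤ)
    (haf : ∀ n, (af n : ℂ) = qCoeff ⇑f₀ n)
    (hcong : ∀ n, (3 : ℤ) ∣ af n - a n)
    (heig : FormalHecke.IsEigensystem
      (fun ℓ => if ℓ ∣ N then 0 else ((chiNegThree ℓ : ℤ) : ℤ)) a)
    (ℓ : ℕ) (hℓ : ℓ.Prime) :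
    heckeOp N ℓ hℓ - ((a ℓ : ℤ) : CuspForm.heckeAlgebra N 2 ∅) ∈ congIdeal f₀ := by
  rw [mem_congIdeal_iff, mem_threeLattice_iff]
  intro n
  have e1 : ((heckeOp N ℓ hℓ - ((a ℓ : ℤ) : CuspForm.heckeAlgebra N 2 ∅) :
      CuspForm.heckeAlgebra N 2 ∅) : Module.End ℂ (CuspForm (Gamma0 N) 2)) f₀ =
      (heckeOp N ℓ hℓ : Module.End ℂ (CuspForm (Gamma0 N) 2)) f₀ - ((a ℓ : ℤ) : ℂ) • f₀ := by
    rw [Subalgebra.coe_sub, LinearMap.sub_apply, intCast_apply]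
  rw [e1, qCoeff_sub, qCoeff_smul, qCoeff_heckeOp, ← haf, ← haf, ← haf]
  obtain ⟨k₁, hk₁⟩ := rel_mod_three (N := N) a heig ℓ hℓ n
  obtain ⟨k₂, hk₂⟩ := hcong (n * ℓ)
  obtain ⟨k₃, hk₃⟩ := hcong (n / ℓ)
  obtain ⟨k₄, hk₄⟩ := hcong n
  have h2 : af (n * ℓ) = a (n * ℓ) + 3 * k₂ := by linarith
  have h3 : af (n / ℓ) = a (n / ℓ) + 3 * k₃ := by linarith
  have h4 : af n = a n + 3 * k₄ := by linarith
  by_cases hd : ℓ ∣ n
  · rw [if_pos hd] at hk₁ ⊢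
    refine ⟨k₁ + k₂ + eN N ℓ * k₃ - a ℓ * k₄, ?_⟩
    rw [h2, h3, h4]
    have h1 : a (n * ℓ) = 3 * k₁ - eN N ℓ * a (n / ℓ) + a ℓ * a n := by linarith
    rw [h1]
    push_cast
    ring
  · rw [if_neg hd] at hk₁ ⊢
    refine ⟨k₁ + k₂ - a ℓ * k₄, ?_⟩
    rw [h2, h4]
    have h1 : a (n * ℓ) = 3 * k₁ + a ℓ * a n := by linarith
    rw [h1]
    push_cast
    ring

theorem forall_exists_int_sub_mem (f₀ : CuspForm (Gamma0 N) 2) (af a : ℕ → ℤ)
    (haf : ∀ n, (af n : ℂ) = qCoeff ⇑f₀ n)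
    (hcong : ∀ n, (3 : ℤ) ∣ af n - a n)
    (heig : FormalHecke.IsEigensystem
      (fun ℓ => if ℓ ∣ N then 0 else ((chiNegThree ℓ : ℤ) : ℤ)) a)
    (T : CuspForm.heckeAlgebra N 2 ∅) :
    ∃ m : ℤ, T - ((m : ℤ) : CuspForm.heckeAlgebra N 2 ∅) ∈ congIdeal f₀ := by
  obtain ⟨T, hT⟩ := T
  induction hT using Algebra.adjoin_induction with
  | mem x hx =>
    rcases hx with ⟨ℓ, hℓ, hℓN, -, rfl⟩ | ⟨q, hqN, hq, -, rfl⟩
    · refine ⟨a ℓ, ?_⟩
      have := heckeOp_sub_mem f₀ af a haf hcong heig ℓ hℓ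
      have e : heckeOp N ℓ hℓ = ⟨CuspForm.heckeTLin 2 hℓ hℓN, Algebra.subset_adjoin
          (Or.inl ⟨ℓ, hℓ, hℓN, Set.notMem_empty ℓ, rfl⟩)⟩ := by
        unfold heckeOp
        rw [dif_neg hℓN]
        rfl
      rw [e] at this
      exact this
    · refine ⟨a q, ?_⟩
      have := heckeOp_sub_mem f₀ af a haf hcong heig q hq
      have e : heckeOp N q hq = ⟨CuspForm.heckeULin 2 hqN, Algebra.subset_adjoin
          (Or.inr ⟨q, hqN, hq, Set.notMem_empty q, rfl⟩)⟩ := by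
        unfold heckeOp
        rw [dif_pos hqN]
        rfl
      rw [e] at this
      exact this
  | algebraMap r =>
    refine ⟨r, ?_⟩
    have : (⟨algebraMap ℤ (Module.End ℂ (CuspForm (Gamma0 N) 2)) r,
        Subalgebra.algebraMap_mem _ r⟩ : CuspForm.heckeAlgebra N 2 ∅) =
        ((r : ℤ) : CuspForm.heckeAlgebra N 2 ∅) := by
      apply Subtype.ext
      have := map_intCast (CuspForm.heckeAlgebra N 2 ∅).val r
      show algebraMap ℤ (Module.End ℂ (CuspForm (Gamma0 N) 2)) r = _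
      rw [eq_intCast (algebraMap ℤ (Module.End ℂ (CuspForm (Gamma0 N) 2))) r]
      exact this.symm
    rw [this, sub_self]
    exact (congIdeal f₀).zero_mem
  | add x y hx hy ihx ihy =>
    obtain ⟨m, hm⟩ := ihx
    obtain ⟨m', hm'⟩ := ihy
    refine ⟨m + m', ?_⟩
    have : (⟨x + y, Subalgebra.add_mem _ hx hy⟩ : CuspForm.heckeAlgebra N 2 ∅) -
        ((m + m' : ℤ) : CuspForm.heckeAlgebra N 2 ∅) =
        ((⟨x, hx⟩ : CuspForm.heckeAlgebra N 2 ∅) - ((m : ℤ) : CuspForm.heckeAlgebra N 2 ∅)) +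
        ((⟨y, hy⟩ : CuspForm.heckeAlgebra N 2 ∅) - ((m' : ℤ) : CuspForm.heckeAlgebra N 2 ∅)) := by
      have e : (⟨x + y, Subalgebra.add_mem _ hx hy⟩ : CuspForm.heckeAlgebra N 2 ∅) =
          ⟨x, hx⟩ + ⟨y, hy⟩ := rfl
      rw [e]
      push_cast
      ring
    rw [this]
    exact (congIdeal f₀).add_mem hm hm'
  | mul x y hx hy ihx ihy =>
    obtain ⟨m, hm⟩ := ihx
    obtain ⟨m', hm'⟩ := ihy
    refine ⟨m * m', ?_⟩
    have : (⟨x * y, Subalgebra.mul_mem _ hx hy⟩ : CuspForm.heckeAlgebra N 2 ∅) -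
        ((m * m' : ℤ) : CuspForm.heckeAlgebra N 2 ∅) =
        (⟨x, hx⟩ : CuspForm.heckeAlgebra N 2 ∅) *
          ((⟨y, hy⟩ : CuspForm.heckeAlgebra N 2 ∅) - ((m' : ℤ) : CuspForm.heckeAlgebra N 2 ∅)) +
        ((m' : ℤ) : CuspForm.heckeAlgebra N 2 ∅) *
          ((⟨x, hx⟩ : CuspForm.heckeAlgebra N 2 ∅) - ((m : ℤ) : CuspForm.heckeAlgebra N 2 ∅)) := by
      have e : (⟨x * y, Subalgebra.mul_mem _ hx hy⟩ : CuspForm.heckeAlgebra N 2 ∅) =
          ⟨x, hx⟩ * ⟨y, hy⟩ := rfl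
      rw [e]
      push_cast
      ring
    rw [this]
    exact (congIdeal f₀).add_mem ((congIdeal f₀).mul_mem_left _ hm')
      ((congIdeal f₀).mul_mem_left _ hm)

end Fermat.Agent.S49

namespace Fermat.Agent.S49

open CuspForm ModularFormClass CongruenceSubgroup UpperHalfPlane EisensteinWeightOne

variable {N : ℕ} [NeZero N]

theorem congIdeal_isMaximal (f₀ : CuspForm (Gamma0 N) 2) (af a : ℕ → ℤ)
    (haf : ∀ n, (af n : ℂ) = qCoeff ⇑f₀ n)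
    (hcong : ∀ n, (3 : ℤ) ∣ af n - a n)
    (heig : FormalHecke.IsEigensystem
      (fun ℓ => if ℓ ∣ N then 0 else ((chiNegThree ℓ : ℤ) : ℤ)) a) :
    (congIdeal f₀).IsMaximal := by
  apply isMaximal_of_forall_exists_int _ 3 Nat.prime_three
  · rw [mem_congIdeal_iff, mem_threeLattice_iff]
    intro n
    refine ⟨af n, ?_⟩
    have e : (((3 : ℕ) : CuspForm.heckeAlgebra N 2 ∅) :
        Module.End ℂ (CuspForm (Gamma0 N) 2)) f₀ = (3 : ℂ) • f₀ := by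
      have := intCast_apply (N := N) 3 f₀
      simpa using this
    rw [e, qCoeff_smul, haf]
  · intro h1
    rw [mem_congIdeal_iff, mem_threeLattice_iff] at h1
    obtain ⟨m, hm⟩ := h1 1
    have e : ((1 : CuspForm.heckeAlgebra N 2 ∅) :
        Module.End ℂ (CuspForm (Gamma0 N) 2)) f₀ = f₀ := by
      rw [Subalgebra.coe_one, Module.End.one_apply]
    rw [e, ← haf] at hm
    have hm' : af 1 = 3 * m := by exact_mod_cast hm
    obtain ⟨k, hk⟩ := hcong 1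
    have ha1 : a 1 = 1 := heig.1
    omega
  · exact forall_exists_int_sub_mem f₀ af a haf hcong heig

theorem main (h : CuspForm.HasIntegralBasis N) {a : ℕ → ℤ}
    (heig : FormalHecke.IsEigensystem
      (fun ℓ => if ℓ ∣ N then 0 else ((chiNegThree ℓ : ℤ) : ℤ)) a)
    (hreal : CuspForm.IsLatticeRealized N a) :
    ∃ (f : CuspForm (Gamma0 N) 2) (_ : f.IsNormalizedEigenform)
      (𝔪' : Ideal (integralClosure ℤ ℂ)), 𝔪'.IsMaximal ∧
      ((3 : ℕ) : integralClosure ℤ ℂ) ∈ 𝔪' ∧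
      ∀ (ℓ : ℕ) (_ : ℓ.Prime) (_ : ¬ ℓ ∣ N),
        ∃ c : integralClosure ℤ ℂ, (c : ℂ) = ModularFormClass.qCoeff f ℓ ∧
          c - (a ℓ : integralClosure ℤ ℂ) ∈ 𝔪' := by
  classical
  obtain ⟨f₀, -, af, haf, hdiv⟩ := hreal
  have hcong : ∀ n, (3 : ℤ) ∣ af n - a n := by
    intro n
    have h1 := hdiv n
    have h2 : (((af n - (bridgeProduct a).coeff n : ℤ)) : ZMod 3) = 0 :=
      (ZMod.intCast_zmod_eq_zero_iff_dvd _ 3).2 (by exact_mod_cast h1)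
    have h3 : (((af n - a n : ℤ)) : ZMod 3) = 0 := by
      push_cast at h2 ⊢
      rw [bridge_coeff_cast] at h2
      exact h2
    exact_mod_cast (ZMod.intCast_zmod_eq_zero_iff_dvd _ 3).1 h3
  have hfd : FiniteDimensional ℂ (CuspForm (Gamma0 N) 2) :=
    finiteDimensional_of_hasIntegralBasis h
  have hfin : Module.Finite ℤ (CuspForm.heckeAlgebra N 2 ∅) := heckeAlgebra_finite h
  have hmax : (congIdeal f₀).IsMaximal := congIdeal_isMaximal f₀ af a haf hcong heig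
  have hprime : (congIdeal f₀).IsPrime := hmax.isPrime
  obtain ⟨θ, w, hw0, hw, hker⟩ := exists_eigen_character
    (A := CuspForm.heckeAlgebra N 2 ∅) (V := CuspForm (Gamma0 N) 2)
    ((CuspForm.heckeAlgebra N 2 ∅).val : CuspForm.heckeAlgebra N 2 ∅ →+*
      Module.End ℂ (CuspForm (Gamma0 N) 2)) Subtype.val_injective (congIdeal f₀)
  obtain ⟨𝔪, h𝔪, h𝔪c⟩ := exists_maximal_over θ (congIdeal f₀) hker
  have hw' : ∀ T : CuspForm.heckeAlgebra N 2 ∅,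
      (T : Module.End ℂ (CuspForm (Gamma0 N) 2)) w = θ T • w := hw
  -- coefficient relations for `w`
  let cθ : ℕ → ℂ := fun ℓ => if hℓ : ℓ.Prime then θ (heckeOp N ℓ hℓ) else 0
  have hcθ : ∀ ℓ (hℓ : ℓ.Prime), cθ ℓ = θ (heckeOp N ℓ hℓ) := fun ℓ hℓ => dif_pos hℓ
  have hrelw : ∀ ℓ : ℕ, ℓ.Prime → ∀ n : ℕ,
      qCoeff ⇑w (n * ℓ) + (if ℓ ∣ n then ((eN N ℓ : ℤ) : ℂ) * qCoeff ⇑w (n / ℓ) else 0) =
        cθ ℓ * qCoeff ⇑w n := by
    intro ℓ hℓ n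
    rw [← qCoeff_heckeOp ℓ hℓ w n, hw', qCoeff_smul, hcθ ℓ hℓ]
  have hw1 : qCoeff ⇑w 1 ≠ 0 := by
    intro h1
    apply hw0
    apply eq_zero_of_qCoeff_eq_zero
    intro n
    rcases Nat.eq_zero_or_pos n with rfl | hn
    · exact qCoeff_cusp_zero w
    · exact eq_zero_of_rel_of_one_eq_zero (fun ℓ => ((eN N ℓ : ℤ) : ℂ)) (fun n => qCoeff ⇑w n)
        cθ h1 hrelw n hn
  -- normalise
  set f : CuspForm (Gamma0 N) 2 := (qCoeff ⇑w 1)⁻¹ • w with hf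
  have hfq : ∀ n, qCoeff ⇑f n = (qCoeff ⇑w 1)⁻¹ * qCoeff ⇑w n := fun n => qCoeff_smul _ _ _
  have hf1 : qCoeff ⇑f 1 = 1 := by rw [hfq, inv_mul_cancel₀ hw1]
  have hrelf' : ∀ ℓ : ℕ, ℓ.Prime → ∀ n : ℕ,
      qCoeff ⇑f (n * ℓ) + (if ℓ ∣ n then ((eN N ℓ : ℤ) : ℂ) * qCoeff ⇑f (n / ℓ) else 0) =
        cθ ℓ * qCoeff ⇑f n := by
    intro ℓ hℓ n
    have := hrelw ℓ hℓ n
    rw [hfq, hfq, hfq]
    by_cases hd : ℓ ∣ n
    · rw [if_pos hd] at this ⊢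
      linear_combination (qCoeff ⇑w 1)⁻¹ * this
    · rw [if_neg hd] at this ⊢
      linear_combination (qCoeff ⇑w 1)⁻¹ * this
  have hfℓ : ∀ ℓ (hℓ : ℓ.Prime), qCoeff ⇑f ℓ = cθ ℓ := by
    intro ℓ hℓ
    have := hrelf' ℓ hℓ 1
    have hd : ¬ ℓ ∣ 1 := fun hd => hℓ.one_lt.ne' (Nat.dvd_one.1 hd)
    rw [if_neg hd, one_mul, add_zero, hf1, mul_one] at this
    exact this
  have hrelf : ∀ ℓ : ℕ, ℓ.Prime → ∀ n : ℕ,
      qCoeff ⇑f (n * ℓ) + (if ℓ ∣ n then ((eN N ℓ : ℤ) : ℂ) * qCoeff ⇑f (n / ℓ) else 0) =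
        qCoeff ⇑f ℓ * qCoeff ⇑f n := by
    intro ℓ hℓ n
    rw [hfℓ ℓ hℓ]
    exact hrelf' ℓ hℓ n
  have hnorm : f.IsNormalizedEigenform :=
    { qCoeff_one := hf1
      qCoeff_mul_of_coprime := mul_of_coprime_of_rel (fun ℓ => ((eN N ℓ : ℤ) : ℂ))
        (fun n => qCoeff ⇑f n) hf1 hrelf
      qCoeff_prime_pow_of_not_dvd := fun p r hp hpN => by
        have := prime_pow_of_rel (fun ℓ => ((eN N ℓ : ℤ) : ℂ)) (fun n => qCoeff ⇑f n) hrelf p r hp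
        simp only [eN, if_neg hpN, Int.cast_natCast] at this
        exact this
      qCoeff_prime_pow_of_dvd := fun p r hp hpN => by
        have := prime_pow_of_rel (fun ℓ => ((eN N ℓ : ℤ) : ℂ)) (fun n => qCoeff ⇑f n) hrelf p r hp
        simp only [eN, if_pos hpN, Int.cast_zero, zero_mul, sub_zero] at this
        exact this }
  refine ⟨f, hnorm, 𝔪, h𝔪, ?_, ?_⟩
  · obtain ⟨c, hc, hcm⟩ := h𝔪c ((3 : ℕ) : CuspForm.heckeAlgebra N 2 ∅)
    have h3 : ((3 : ℕ) : CuspForm.heckeAlgebra N 2 ∅) ∈ congIdeal f₀ := by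
      rw [mem_congIdeal_iff, mem_threeLattice_iff]
      intro n
      refine ⟨af n, ?_⟩
      have e : (((3 : ℕ) : CuspForm.heckeAlgebra N 2 ∅) :
          Module.End ℂ (CuspForm (Gamma0 N) 2)) f₀ = (3 : ℂ) • f₀ := by
        have := intCast_apply (N := N) 3 f₀
        simpa using this
      rw [e, qCoeff_smul, haf]
    have hc3 : c = ((3 : ℕ) : integralClosure ℤ ℂ) := by
      apply Subtype.ext
      have e3 : (((3 : ℕ) : integralClosure ℤ ℂ) : ℂ) = ((3 : ℕ) : ℂ) :=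
        map_natCast (integralClosure ℤ ℂ).val 3
      rw [hc, map_natCast, e3]
    rw [← hc3]
    exact hcm h3
  · intro ℓ hℓ hℓN
    obtain ⟨c, hc, hcm⟩ := h𝔪c (heckeOp N ℓ hℓ - ((a ℓ : ℤ) : CuspForm.heckeAlgebra N 2 ∅))
    have hmem := heckeOp_sub_mem f₀ af a haf hcong heig ℓ hℓ
    refine ⟨c + ((a ℓ : ℤ) : integralClosure ℤ ℂ), ?_, ?_⟩
    · rw [hfℓ ℓ hℓ, hcθ ℓ hℓ]
      push_cast
      rw [hc, map_sub, map_intCast]
      ring
    · rw [add_sub_cancel_right]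
      exact hcm hmem

end Fermat.Agent.S49
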